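import Fermat.Agent.S55.G.Rec.Tow.Spec
import Fermat.Agent.S55.T.CoresH572

/-!
# S55 / layer G / block REC / adapter TOW, leaf ALG-CM (helper371): `ClassModuleOfSylowSpec`

If `H¹(H, C) = 0` and `|H²(H, C)| ∣ |H|` for all `p`-subgroups `H ≤ Γ`, and `res_P γ` has order
at least `|P|` for ONE `p`-subgroup `P` of index prime to `p`, then `(C, γ)` is a class module
at `p`.

Proof.  Let `H` be a `p`-subgroup and `n • res_H γ = 0`.  Then `[Γ : H] n γ = 0`
(`T.ResIndexSpec`), hence `[Γ : H] n • res_P γ = 0` and `|P| ∣ [Γ : H] n`.  Multiplying by `|H|`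
and using `|H| [Γ : H] = |Γ| = |P| [Γ : P]` gives `|H| ∣ [Γ : P] n`, so `|H| ∣ n` (`|H|` is a
power of `p`, `p ∤ [Γ : P]`).  So `res_H γ` has order `≥ |H| ≥ |H²(H, C)|`: it generates.
-/

set_option autoImplicit false

open CategoryTheory groupCohomology

noncomputable section

namespace Fermat.Agent.S55.G.Rec.TOW.H371

open Fermat.Agent.S55

/-- In a finite abelian group whose order divides `m`, an element whose order is a multiple of
`m` generates, and the group has order `m`. -/
theorem card_eq_and_generates {M : Type} [AddCommGroup M] [Finite M] (m : ℕ) (g : M)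
    (hcard : Nat.card M ∣ m) (hg : ∀ n : ℕ, n • g = 0 → m ∣ n) :
    Nat.card M = m ∧ ∀ x : M, ∃ n : ℕ, x = n • g := by
  have h1 : addOrderOf g ∣ Nat.card M := addOrderOf_dvd_natCard g
  have h2 : m ∣ addOrderOf g := hg _ (addOrderOf_nsmul_eq_zero g)
  have h3 : Nat.card M = m := Nat.dvd_antisymm hcard (h2.trans h1)
  have h4 : addOrderOf g = Nat.card M := Nat.dvd_antisymm h1 (h3 ▸ h2)
  refine ⟨h3, fun x => ?_⟩
  have htop : AddSubgroup.zmultiples g = ⊤ := by
    apply AddSubgroup.eq_top_of_card_eq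
    rw [Nat.card_zmultiples, h4]
  have hx : x ∈ AddSubgroup.zmultiples g := htop ▸ AddSubgroup.mem_top x
  rw [← mem_multiples_iff_mem_zmultiples] at hx
  obtain ⟨n, hn⟩ := hx
  exact ⟨n, hn.symm⟩

/-- **ALG-CM.** -/
theorem classModuleOfSylow : ClassModuleOfSylowSpec := by
  intro p hp Γ _ _ C γ P hP hidx hup hord H hH
  haveI : Fact p.Prime := ⟨hp⟩
  obtain ⟨h1, hfin, hcard⟩ := hup H hH
  refine ⟨h1, ?_⟩
  haveI : Finite (groupCohomology (T.resSub C H) 2) := hfin
  -- the order of `res_H γ` is a multiple of `|H|`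
  have key : ∀ n : ℕ, n • res2 C H γ = 0 → Nat.card H ∣ n := by
    intro n hn
    have e1 : (T.resMap C H 2).hom (n • γ) = 0 := by
      rw [map_nsmul]
      exact hn
    have e2 : H.index • (n • γ) = 0 := T.H572.resIndex ℤ Γ C H 2 (by norm_num) (n • γ) e1
    have e3 : (H.index * n) • res2 C P γ = 0 := by
      rw [← map_nsmul, mul_smul, e2, map_zero]
    have e4 : Nat.card P ∣ H.index * n := hord _ e3
    have e5 : Nat.card H * Nat.card P ∣ Nat.card P * (P.index * n) := by
      have : Nat.card P * (P.index * n) = Nat.card H * (H.index * n) := by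
        rw [← mul_assoc, ← mul_assoc, Subgroup.card_mul_index, Subgroup.card_mul_index]
      rw [this]
      exact Nat.mul_dvd_mul_left _ e4
    have hPpos : 0 < Nat.card P := Nat.card_pos
    have e6 : Nat.card H ∣ P.index * n := by
      rw [mul_comm (Nat.card H)] at e5
      exact (Nat.mul_dvd_mul_iff_left hPpos).1 e5
    obtain ⟨a, ha⟩ := hH.exists_card_eq
    have hcop : Nat.Coprime (Nat.card H) P.index := by
      rw [ha]
      exact Nat.Coprime.pow_left _ ((Nat.Prime.coprime_iff_not_dvd hp).2 hidx)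
    exact hcop.dvd_of_dvd_mul_left e6
  exact card_eq_and_generates (Nat.card H) (res2 C H γ) hcard key

end Fermat.Agent.S55.G.Rec.TOW.H371
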